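import Mathlib
import Fermat.Agent.S16.HeckeTrick.Defs
import Fermat.Agent.S16.ThetaAnalytic.Main

/-!
# S16 / TH / Glue (owner helper24): the integral quadratic form `qInt A x = ½ xᵀ A x`
and the bridge between `TH.theta A` (helper16's shape) and the generic `thetaSeries` (helper9).
-/

set_option autoImplicit false

open Complex UpperHalfPlane
open scoped Real Matrix

namespace Fermat.Agent.S16.TH

/-- The integer-valued quadratic form `Q_A(x) = ½ xᵀ A x` (for `A` symmetric with even diagonal). -/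
def qInt (A : Matrix (Fin 4) (Fin 4) ℤ) (x : Fin 4 → ℤ) : ℤ :=
  (∑ i, ∑ j, A i j * x i * x j) / 2

theorem two_mul_qInt (A : Matrix (Fin 4) (Fin 4) ℤ) (hA : A.IsSymm) (hev : ∀ i, Even (A i i))
    (x : Fin 4 → ℤ) : 2 * qInt A x = ∑ i, ∑ j, A i j * x i * x j := by
  unfold qInt
  apply Int.mul_ediv_cancel'
  obtain ⟨a0, h0⟩ := hev 0
  obtain ⟨a1, h1⟩ := hev 1
  obtain ⟨a2, h2⟩ := hev 2
  obtain ⟨a3, h3⟩ := hev 3
  have s10 : A 1 0 = A 0 1 := hA.apply 0 1
  have s20 : A 2 0 = A 0 2 := hA.apply 0 2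
  have s30 : A 3 0 = A 0 3 := hA.apply 0 3
  have s21 : A 2 1 = A 1 2 := hA.apply 1 2
  have s31 : A 3 1 = A 1 3 := hA.apply 1 3
  have s32 : A 3 2 = A 2 3 := hA.apply 2 3
  refine ⟨a0 * x 0 * x 0 + a1 * x 1 * x 1 + a2 * x 2 * x 2 + a3 * x 3 * x 3
    + A 0 1 * x 0 * x 1 + A 0 2 * x 0 * x 2 + A 0 3 * x 0 * x 3 + A 1 2 * x 1 * x 2
    + A 1 3 * x 1 * x 3 + A 2 3 * x 2 * x 3, ?_⟩
  simp only [Fin.sum_univ_four, h0, h1, h2, h3, s10, s20, s30, s21, s31, s32]
  ring

theorem quad_intCast (A : Matrix (Fin 4) (Fin 4) ℤ) (hA : A.IsSymm) (hev : ∀ i, Even (A i i))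
    (x : Fin 4 → ℤ) : quad A (fun i => (x i : ℝ)) = (qInt A x : ℝ) := by
  have h := two_mul_qInt A hA hev x
  have h' : (2 : ℝ) * (qInt A x : ℝ) = ∑ i, ∑ j, (A i j : ℝ) * (x i : ℝ) * (x j : ℝ) := by
    exact_mod_cast congrArg (Int.cast : ℤ → ℝ) h
  unfold quad
  rw [← h']
  ring

/-- `2 Q_A(v) = vᵀ A v` in terms of `dotProduct`/`mulVec` of the real matrix. -/
theorem two_mul_quad_eq_dotProduct (A : Matrix (Fin 4) (Fin 4) ℤ) (v : Fin 4 → ℝ) :
    2 * quad A v = star v ⬝ᵥ ((A.map (Int.cast : ℤ → ℝ)) *ᵥ v) := by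
  unfold quad
  rw [mul_div_cancel₀ _ (two_ne_zero)]
  simp only [dotProduct, Matrix.mulVec, Matrix.map_apply, star_trivial, Finset.mul_sum]
  refine Finset.sum_congr rfl fun i _ => Finset.sum_congr rfl fun j _ => ?_
  ring

theorem quad_pos (A : Matrix (Fin 4) (Fin 4) ℤ) (hpos : (A.map (Int.cast : ℤ → ℝ)).PosDef)
    (v : Fin 4 → ℝ) (hv : v ≠ 0) : 0 < quad A v := by
  have h := hpos.dotProduct_mulVec_pos hv
  rw [← two_mul_quad_eq_dotProduct] at h
  linarith

theorem quad_zero (A : Matrix (Fin 4) (Fin 4) ℤ) : quad A (fun _ => (0 : ℝ)) = 0 := by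
  simp [quad]

theorem quad_nonneg (A : Matrix (Fin 4) (Fin 4) ℤ) (hpos : (A.map (Int.cast : ℤ → ℝ)).PosDef)
    (v : Fin 4 → ℝ) : 0 ≤ quad A v := by
  by_cases hv : v = 0
  · subst hv
    exact (quad_zero A).ge
  · exact (quad_pos A hpos v hv).le

theorem qInt_nonneg (A : Matrix (Fin 4) (Fin 4) ℤ) (hA : A.IsSymm) (hev : ∀ i, Even (A i i))
    (hpos : (A.map (Int.cast : ℤ → ℝ)).PosDef) (x : Fin 4 → ℤ) : 0 ≤ qInt A x := by
  have h := quad_nonneg A hpos (fun i => (x i : ℝ))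
  rw [quad_intCast A hA hev] at h
  exact_mod_cast h

theorem qInt_eq_zero_iff (A : Matrix (Fin 4) (Fin 4) ℤ) (hA : A.IsSymm) (hev : ∀ i, Even (A i i))
    (hpos : (A.map (Int.cast : ℤ → ℝ)).PosDef) (x : Fin 4 → ℤ) : qInt A x = 0 ↔ x = 0 := by
  constructor
  · intro h
    by_contra hx
    have hv : (fun i => (x i : ℝ)) ≠ 0 := by
      intro h0
      apply hx
      funext i
      have := congrFun h0 i
      simpa using this
    have hq := quad_pos A hpos _ hv
    rw [quad_intCast A hA hev, h] at hq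
    simp at hq
  · rintro rfl
    simp [qInt]

theorem qInt_neg (A : Matrix (Fin 4) (Fin 4) ℤ) (x : Fin 4 → ℤ) : qInt A (-x) = qInt A x := by
  unfold qInt
  congr 1
  refine Finset.sum_congr rfl fun i _ => Finset.sum_congr rfl fun j _ => ?_
  simp only [Pi.neg_apply]
  ring

/-- helper16's `theta A` is helper9's generic `thetaSeries` of `qInt A`. -/
theorem theta_eq_thetaSeries (A : Matrix (Fin 4) (Fin 4) ℤ) (hA : A.IsSymm)
    (hev : ∀ i, Even (A i i)) (z : ℍ) : theta A z = thetaSeries (qInt A) (z : ℂ) := by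
  unfold theta thetaSeries
  refine tsum_congr fun x => ?_
  rw [quad_intCast A hA hev]
  push_cast
  rfl

/-- The real summability hypothesis of THETA-ANALYTIC from (INV) (at `v = 0`). -/
theorem summable_exp_of_inv {p : ℕ} (A A' : Matrix (Fin 4) (Fin 4) ℤ) (hA : A.IsSymm)
    (hev : ∀ i, Even (A i i)) (hInv : InvStatement p A A') :
    ∀ t : ℝ, 0 < t → Summable (fun x : Fin 4 → ℤ => Real.exp (-t * (qInt A x : ℝ))) := by
  apply thetaSeries_summable_real_of_complex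
  intro τ
  have h := (hInv (fun _ => 0) (τ : ℂ) τ.im_pos).1
  refine h.congr fun x => ?_
  have : (fun i => (x i : ℝ) + (fun _ : Fin 4 => (0 : ℝ)) i) = fun i => (x i : ℝ) := by
    funext i; simp
  rw [this, quad_intCast A hA hev]
  push_cast
  rfl

/-- The `q`-expansion of `theta A` in the shape consumed by `exists_thetaForm`. -/
theorem theta_hasSum (A : Matrix (Fin 4) (Fin 4) ℤ) (hA : A.IsSymm) (hev : ∀ i, Even (A i i))
    (hN : ∀ x, 0 ≤ qInt A x)
    (hs : ∀ t : ℝ, 0 < t → Summable (fun x : Fin 4 → ℤ => Real.exp (-t * (qInt A x : ℝ))))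
    (z : ℍ) :
    HasSum (fun n : ℕ => ((repNum (qInt A) n : ℕ) : ℂ) * cexp (2 * π * Complex.I * n * z))
      (theta A z) := by
  rw [theta_eq_thetaSeries A hA hev]
  have h := thetaSeries_hasSum_qExpansion (qInt A) hN hs z
  refine h.congr_fun ?_
  intro n
  rw [smul_eq_mul]
  congr 1
  rw [Function.Periodic.qParam, ← Complex.exp_nat_mul]
  congr 1
  push_cast
  ring

end Fermat.Agent.S16.TH
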