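import Mathlib
import Fermat.Agent.S16.HeckeTrick.Iface
import Fermat.Agent.S16.TH.Glue
import Fermat.Agent.S16.Gauss.Statement
import Fermat.Agent.S16.LAT.Main
import Fermat.Agent.S16.INV.Statement

/-!
# S16 / TH / Main (owner helper24): the theta series `Θ ∈ M₂(Γ₀(p))`

`exists_theta`: for every odd prime `p` there is `Θ ∈ M₂(Γ₀(p))` with `a₀(Θ) = 1` and
`a_k(Θ) ∈ 2ℤ` for `k ≥ 1` (the theta series of an even quaternary lattice of level `p` and
determinant `p²`).
-/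

set_option autoImplicit false

open Complex UpperHalfPlane CongruenceSubgroup
open scoped Real MatrixGroups ModularForm

namespace Fermat.Agent.S16.TH

/-- (TH), core: from a lattice pair `(A, B)` and (INV) for it. -/
theorem exists_theta_core (p : ℕ) (hp : p.Prime) (A B : Matrix (Fin 4) (Fin 4) ℤ)
    (hA : A.IsSymm) (hB : B.IsSymm) (hevA : ∀ i, Even (A i i)) (hevB : ∀ i, Even (B i i))
    (hAB : A * B = (p : ℤ) • (1 : Matrix (Fin 4) (Fin 4) ℤ)) (hdet : A.det = (p : ℤ) ^ 2)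
    (hposA : (A.map (Int.cast : ℤ → ℝ)).PosDef) (hposB : (B.map (Int.cast : ℤ → ℝ)).PosDef)
    (hInv : InvStatement p A B) :
    ∃ Θ : ModularForm (Gamma0 p) 2, ModularFormClass.qCoeff Θ 0 = 1 ∧
      ∀ k : ℕ, 1 ≤ k → ∃ r : ℤ, ModularFormClass.qCoeff Θ k = ((2 * r : ℤ) : ℂ) := by
  have hGauss : GaussStatement p A B := Gauss.gauss_statement p A B hA hB hevA hevB hAB hdet
  have hN : ∀ x, 0 ≤ qInt A x := qInt_nonneg A hA hevA hposA
  have hs := summable_exp_of_inv A B hA hevA hInv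
  obtain ⟨Θ, -, hΘ⟩ := exists_thetaForm hp A B hA hevA
    (fun y => quad_nonneg B hposB _) hInv hGauss
    (fun n => ((repNum (qInt A) n : ℕ) : ℂ)) (theta_hasSum A hA hevA hN hs)
  refine ⟨Θ, ?_, ?_⟩
  · rw [hΘ 0, repNum_zero (qInt A) 0 (qInt_eq_zero_iff A hA hevA hposA)]
    simp
  · intro k hk
    have hev : Even (repNum (qInt A) k) := by
      refine repNum_even (qInt A) (fun x => -x) (fun x => neg_neg x) (qInt_neg A) ?_ hk
      intro x hx
      have hx0 : x = 0 := by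
        funext i
        have := congrFun hx i
        simp only [Pi.neg_apply, Pi.zero_apply] at this ⊢
        omega
      rw [hx0]
      exact (qInt_eq_zero_iff A hA hevA hposA 0).mpr rfl
    obtain ⟨r, hr⟩ := hev
    refine ⟨(r : ℤ), ?_⟩
    rw [hΘ k, hr]
    push_cast
    ring

/-- **(TH)** For every odd prime `p` there is `Θ ∈ M₂(Γ₀(p))` with `a₀ = 1`, `a_k ∈ 2ℤ` (`k ≥ 1`). -/
theorem exists_theta (p : ℕ) (hp : p.Prime) (hp2 : p ≠ 2) :
    ∃ Θ : ModularForm (Gamma0 p) 2, ModularFormClass.qCoeff Θ 0 = 1 ∧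
      ∀ k : ℕ, 1 ≤ k → ∃ r : ℤ, ModularFormClass.qCoeff Θ k = ((2 * r : ℤ) : ℂ) := by
  obtain ⟨A, B, hA, hB, hevA, hevB, hAB, -, hdetA, -, hposA, hposB⟩ := lat_exists p hp hp2
  exact exists_theta_core p hp A B hA hB hevA hevB hAB hdetA hposA hposB
    (INV.inv_statement p hp.pos A B hposA hAB hdetA)

end Fermat.Agent.S16.TH
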