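import Mathlib
import Fermat.Prelude.Def_FLTPrelim_Modularity
import Fermat.Agent.S16.TH.Main
import Fermat.Agent.S16.E2.Iface
import Fermat.Agent.S16.B1.Iface

/-!
# S16 / TH / LBin (owner helper24): the lower-bound input (LBin)

For every odd prime `p` there is a cusp form `f₀ ∈ S₂(Γ₀(p))` whose `q`-coefficients are
`a_k(f₀) = (p - 1) · 2 · r(k) - 24 · σ'(k)` for `k ≥ 1`, with `r(k) ∈ ℤ`
(`f₀ = (p - 1) (Θ - E*)`, `Θ` the theta series of an even quaternary lattice of level `p`).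

Statement FROZEN (accepted by the chief helper20).
-/

set_option autoImplicit false

open UpperHalfPlane ModularForm CongruenceSubgroup

namespace Fermat.Agent.S16.TH

open Fermat.Agent.S23 (Gam)

/-- (LBin) from a theta form and an Eisenstein form: `f₀ = (p - 1) (Θ - E)`. -/
theorem lbin_of (p : ℕ) (hp : p.Prime) (Θ E : ModularForm (Gam p) 2) (r : ℕ → ℤ) (s : ℕ → ℤ)
    (hΘ0 : (qExpansion 1 Θ).coeff 0 = 1)
    (hΘ : ∀ k : ℕ, 1 ≤ k → (qExpansion 1 Θ).coeff k = ((2 * r k : ℤ) : ℂ))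
    (hE0 : (qExpansion 1 E).coeff 0 = 1)
    (hE : ∀ k : ℕ, 1 ≤ k → ((p : ℂ) - 1) * (qExpansion 1 E).coeff k = 24 * (s k : ℂ)) :
    ∃ f₀ : CuspForm (Gam p) 2, ∀ k : ℕ, 1 ≤ k →
      (qExpansion 1 f₀).coeff k = ((((p : ℤ) - 1) * 2 * r k - 24 * s k : ℤ) : ℂ) := by
  haveI : NeZero p := ⟨hp.ne_zero⟩
  let F : ModularForm (Gam p) 2 := ((p : ℂ) - 1) • (Θ - E)
  have hexp : HasExp 1 (F : ℍ → ℂ) (((p : ℂ) - 1) • (qExpansion 1 Θ - qExpansion 1 E)) := by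
    have h1 := ((hasExp_gam Θ).sub (hasExp_gam E)).smul ((p : ℂ) - 1)
    exact h1.congr (fun z => rfl)
  have hF : qExpansion 1 F = ((p : ℂ) - 1) • (qExpansion 1 Θ - qExpansion 1 E) :=
    HasExp.eq_qExpansion F hexp
  have hF0 : (qExpansion 1 F).coeff 0 = 0 := by
    rw [hF]
    simp only [map_smul, map_sub, hΘ0, hE0, sub_self, smul_zero]
  obtain ⟨f, hf⟩ := B1.exists_cuspForm hp F hF0
  refine ⟨f, fun k hk => ?_⟩
  have hfun : (f : ℍ → ℂ) = (F : ℍ → ℂ) := funext hf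
  rw [hfun, hF]
  simp only [map_smul, map_sub, smul_eq_mul, mul_sub]
  rw [hE k hk, hΘ k hk]
  push_cast
  ring

/-- **(LBin)** -/
theorem lbin (p : ℕ) (hp : p.Prime) (hp2 : p ≠ 2) :
    ∃ (f₀ : CuspForm (CongruenceSubgroup.Gamma0 p) 2) (r : ℕ → ℤ), ∀ k : ℕ, 1 ≤ k →
      ModularFormClass.qCoeff (⇑f₀) k =
        ((((p : ℤ) - 1) * 2 * r k
          - 24 * (∑ d ∈ k.divisors.filter (fun d => ¬ p ∣ d), (d : ℤ)) : ℤ) : ℂ) := by
  obtain ⟨Θ, hΘ0, hΘ⟩ := exists_theta p hp hp2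
  obtain ⟨E, hE0, hE⟩ := exists_Estar hp
  have hr : ∀ k : ℕ, ∃ r : ℤ, 1 ≤ k → ModularFormClass.qCoeff Θ k = ((2 * r : ℤ) : ℂ) := by
    intro k
    by_cases hk : 1 ≤ k
    · obtain ⟨r, hr⟩ := hΘ k hk
      exact ⟨r, fun _ => hr⟩
    · exact ⟨0, fun h => absurd h hk⟩
  choose r hr using hr
  obtain ⟨f₀, hf₀⟩ := lbin_of p hp Θ E r
    (fun k => ∑ d ∈ k.divisors.filter (fun d => ¬ p ∣ d), (d : ℤ)) hΘ0 hr hE0 (by
      intro k hk
      rw [hE k hk]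
      congr 1
      have := sigmaNat_cast_int p k
      exact_mod_cast congrArg (Int.cast : ℤ → ℂ) this)
  exact ⟨f₀, r, fun k hk => hf₀ k hk⟩

end Fermat.Agent.S16.TH
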